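/-
S12 / FI / ALG (chief helper74): the `a₁`-pairing of an abstract Hecke lattice (S16/R) is perfect on the
Hecke side; saturation of the Hecke ring in `End L` inside its commutant.
-/
import Fermat.Agent.S16.R.Duality

set_option autoImplicit false

namespace Fermat.Agent.S12.FI

open Fermat.Agent.S16.R

local notation "PP" => MvPolynomial Nat.Primes ℤ

variable {p : ℕ} {L : Type*} [AddCommGroup L] [Module.Free ℤ L] [Module.Finite ℤ L]
  {act : PP →+* Module.End ℤ L} {a : ℕ → L →ₗ[ℤ] ℤ}

/-- The `a₁`-pairing is perfect on the Hecke side: every functional on `L` is `f ↦ a₁(s f)`. -/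
theorem pairing_surjective (H : IsHeckeLattice p act a) (lam : L →ₗ[ℤ] ℤ) :
    ∃ s : PP, ∀ f : L, lam f = a 1 (act s f) := by
  let e : L ≃ₗ[ℤ] Module.Dual ℤ (heckeImage act) :=
    LinearEquiv.ofBijective (pairing act a).flip
      ⟨H.pairing_flip_injective, H.pairing_flip_surjective⟩
  obtain ⟨t, ht⟩ := (Module.evalEquiv ℤ (heckeImage act)).surjective
    (lam.comp e.symm.toLinearMap)
  obtain ⟨_, s, rfl⟩ := t
  refine ⟨s, fun f => ?_⟩
  have h1 := LinearMap.congr_fun ht (e f)
  rw [Module.evalEquiv_apply, Module.Dual.eval_apply] at h1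
  have h2 : (lam.comp e.symm.toLinearMap) (e f) = lam f := by
    show lam (e.symm (e f)) = lam f
    rw [e.symm_apply_apply]
  rw [← h2, ← h1]
  rfl

/-- An endomorphism `b` of `L` with `l b = act t` lies in the image of `act`. -/
theorem exists_act_eq_of_smul (H : IsHeckeLattice p act a) (l : ℤ) (hl : l ≠ 0) (t : PP)
    (b : Module.End ℤ L) (hb : l • b = act t) : ∃ s : PP, b = act s := by
  have hcomm : ∀ (t' : PP) (f : L), b (act t' f) = act t' (b f) := by
    intro t' f
    apply smul_right_injective L hl
    show l • b (act t' f) = l • act t' (b f)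
    rw [← map_smul (act t'), ← LinearMap.smul_apply, ← LinearMap.smul_apply, hb,
      ← Module.End.mul_apply, ← Module.End.mul_apply, ← map_mul, ← map_mul, mul_comm]
  obtain ⟨s, hs⟩ := pairing_surjective H ((a 1).comp b)
  refine ⟨s, LinearMap.ext fun f => ?_⟩
  rw [← sub_eq_zero]
  refine H.eq_zero_of_one _ fun t' => ?_
  have h1 := hs (act t' f)
  rw [LinearMap.comp_apply, hcomm] at h1
  have h2 : act s (act t' f) = act t' (act s f) := by
    rw [← Module.End.mul_apply, ← Module.End.mul_apply, ← map_mul, ← map_mul, mul_comm]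
  rw [map_sub, map_sub, h1, h2, sub_self]

end Fermat.Agent.S12.FI
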