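/-
S12 / FI / ALG (chief helper74): the abstract endgame.
-/
import Fermat.Agent.S12.FI.Alg.Dual

set_option autoImplicit false

namespace Fermat.Agent.S12.FI

open Fermat.Agent.S16.R

local notation "PP" => MvPolynomial Nat.Primes ℤ

variable {p : ℕ} {L : Type*} [AddCommGroup L] [Module.Free ℤ L] [Module.Finite ℤ L]
  {act : PP →+* Module.End ℤ L} {a : ℕ → L →ₗ[ℤ] ℤ}

/-- one step: every element of `act I` is `l` times an element of `act I`. -/
theorem exists_smul_of_mem (H : IsHeckeLattice p act a) (l : ℕ) (hl : 1 < l) (I : Ideal PP)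
    (hker : RingHom.ker act ≤ I) (hsat : ∀ t : PP, (l : ℤ) • t ∈ I → t ∈ I)
    (hFI : ∀ t ∈ I, ∀ f : L, (l : ℤ) ∣ a 1 (act t f)) (t : PP) (ht : t ∈ I) :
    ∃ s ∈ I, act t = (l : ℤ) • act s := by
  have hl0 : l ≠ 0 := by omega
  have hl0' : (l : ℤ) ≠ 0 := by exact_mod_cast hl0
  have hdiv : ∀ f : L, ∃ g : L, act t f = (l : ℤ) • g := by
    intro f
    refine H.sat l hl0 _ (H.dvd_of_dvd_one l _ fun t' => ?_)
    rw [← Module.End.mul_apply, ← map_mul]
    exact hFI _ (I.mul_mem_left t' ht) f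
  let bs := Module.Free.chooseBasis ℤ L
  let b : Module.End ℤ L := bs.constr ℤ fun i => (hdiv (bs i)).choose
  have hb : (l : ℤ) • b = act t := by
    refine bs.ext fun i => ?_
    rw [LinearMap.smul_apply, Module.Basis.constr_basis]
    exact (hdiv (bs i)).choose_spec.symm
  obtain ⟨s, hs⟩ := exists_act_eq_of_smul H (l : ℤ) hl0' t b hb
  refine ⟨s, hsat s ?_, by rw [← hs, hb]⟩
  have h1 : (l : ℤ) • s - t ∈ RingHom.ker act := by
    rw [RingHom.mem_ker, map_sub, map_zsmul, ← hs, hb, sub_self]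
  have h2 := I.add_mem (hker h1) ht
  rwa [sub_add_cancel] at h2

/-- a subgroup `M` of a finite free `ℤ`-module with `M ⊆ l M` is zero. -/
theorem eq_zero_of_forall_exists_smul {E : Type*} [AddCommGroup E] [Module.Free ℤ E]
    [Module.Finite ℤ E] (l : ℕ) (hl : 1 < l) (M : Set E)
    (h : ∀ x ∈ M, ∃ y ∈ M, x = (l : ℤ) • y) : ∀ x ∈ M, x = 0 := by
  have hpow : ∀ (n : ℕ), ∀ x ∈ M, ∃ y ∈ M, x = ((l : ℤ) ^ n) • y := by
    intro n
    induction n with
    | zero => exact fun x hx => ⟨x, hx, by rw [pow_zero, one_smul]⟩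
    | succ n ih =>
      intro x hx
      obtain ⟨y, hy, rfl⟩ := ih x hx
      obtain ⟨z, hz, rfl⟩ := h y hy
      exact ⟨z, hz, by rw [smul_smul, pow_succ]⟩
  intro x hx
  let bs := Module.Free.chooseBasis ℤ E
  apply bs.repr.injective
  rw [map_zero]
  ext i
  rw [Finsupp.zero_apply]
  obtain ⟨y, -, hy⟩ := hpow (bs.repr x i).natAbs x hx
  have h1 : ((l : ℤ) ^ (bs.repr x i).natAbs) ∣ bs.repr x i := by
    refine ⟨bs.repr y i, ?_⟩
    conv_lhs => rw [hy]
    rw [map_smul, Finsupp.smul_apply, smul_eq_mul]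
  apply Int.eq_zero_of_abs_lt_dvd h1
  have h2 : (bs.repr x i).natAbs < l ^ (bs.repr x i).natAbs := Nat.lt_pow_self hl
  rw [Int.abs_eq_natAbs]
  exact_mod_cast h2

/-- **The abstract endgame.**  A saturated ideal `I ⊇ ker act` all of whose elements `t` satisfy
`a₁(t f) ≡ 0 mod l` acts as zero. -/
theorem alg_endgame (H : IsHeckeLattice p act a) (l : ℕ) (hl : 1 < l) (I : Ideal PP)
    (hker : RingHom.ker act ≤ I) (hsat : ∀ t : PP, (l : ℤ) • t ∈ I → t ∈ I)
    (hFI : ∀ t ∈ I, ∀ f : L, (l : ℤ) ∣ a 1 (act t f)) :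
    ∀ t ∈ I, act t = 0 := by
  intro t ht
  refine eq_zero_of_forall_exists_smul l hl {b | ∃ s ∈ I, b = act s} ?_ _ ⟨t, ht, rfl⟩
  rintro _ ⟨s, hs, rfl⟩
  obtain ⟨s', hs', h⟩ := exists_smul_of_mem H l hl I hker hsat hFI s hs
  exact ⟨_, ⟨s', hs', rfl⟩, h⟩

end Fermat.Agent.S12.FI
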